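import Fermat.Statements.S20
import Fermat.Agent.S20.Exists
import Fermat.Agent.S20.Elliptic
import Fermat.Agent.S20.Cusps
import Fermat.Agent.S20.Orbits

set_option autoImplicit false
open CuspForm

namespace Fermat.Agent.S20

open Fermat.Agent.S21 in
/-- the pointwise identity behind the final count -/
theorem pointwise_identity (k : ℤ) (h0 : 0 ≤ k) (h10 : k ≤ 10) (he : Even k) :
    (12 * Module.finrank ℂ (MF ⊤ (2 + k - 12)) : ℤ) =
      12 * Module.finrank ℂ (MF ⊤ (0 - k)) + 1 - 3 * (2 * (if (4 : ℤ) ∣ k then 1 else 0) - 1)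
        - 2 * (3 * (if (6 : ℤ) ∣ k then 1 else 0) - 1)
        - 6 * (Module.finrank ℂ (MF ⊤ (14 - k)) - Module.finrank ℂ (MF ⊤ (14 + k - 12))) := by
  obtain ⟨r, rfl⟩ := he
  have h1 : 0 ≤ r := by omega
  have h2 : r ≤ 5 := by omega
  interval_cases r <;> simp only [finrank_MF_top] <;> norm_num

theorem result (N : ℕ) [NeZero N] :
    (Module.finrank ℂ (CuspForm (CongruenceSubgroup.Gamma0 N) 2) : ℚ) = ModularCurve.genusFormula N := by
  obtain ⟨D⟩ := exists_dualFrame N
  have hneg : (-1 : Matrix.SpecialLinearGroup (Fin 2) ℤ) ∈ CongruenceSubgroup.Gamma0 N :=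
    Fermat.Agent.S21.neg_one_mem_Gamma0 N
  have hS2 := D.finrank_CF 2
  have hM0 := finrank_MF D.toFreeBasis 0
  have hM14 := finrank_MF D.toFreeBasis 14
  have hS14 := D.finrank_CF 14
  have h14 := D.finrank_MF_fourteen
  have h4 := card_four_dvd D.toFreeBasis
  have h6 := card_six_dvd D.toFreeBasis
  have hQ := card_X N
  have hoS := orbitCount_S N
  have hoST := orbitCount_ST N
  have hoT := orbitCount_T N
  rw [finrank_MF_zero] at hM0
  rw [← finrank_CF_eq]
  have key : (12 * Module.finrank ℂ (Fermat.Agent.S21.CF (CongruenceSubgroup.Gamma0 N) 2) : ℤ) =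
      12 + ModularCurve.dedekindPsi N - 3 * ModularCurve.nuTwo N - 4 * ModularCurve.nuThree N
        - 6 * ModularCurve.cuspCount N := by
    have hsum := Finset.sum_congr rfl fun j (_ : j ∈ Finset.univ) =>
      pointwise_identity (D.k j) (D.k_mem hneg j).1 (D.k_mem hneg j).2.1 (D.k_mem hneg j).2.2
    simp only [Finset.sum_sub_distrib, Finset.sum_add_distrib, ← Finset.mul_sum,
      Finset.sum_const, Finset.card_univ, Finset.sum_boole] at hsum
    push_cast [hS2]
    zify at hM0 hM14 hS14 h14 h4 h6 hQ hoS hoST hoT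
    simp only [mul_one, nsmul_eq_mul] at hsum
    rw [hsum]
    rw [← hM0, h4, h6, hQ, ← hM14, ← hS14, h14]
    linarith
  unfold ModularCurve.genusFormula
  have key' : (12 * Module.finrank ℂ (Fermat.Agent.S21.CF (CongruenceSubgroup.Gamma0 N) 2) : ℚ) =
      12 + ModularCurve.dedekindPsi N - 3 * ModularCurve.nuTwo N - 4 * ModularCurve.nuThree N
        - 6 * ModularCurve.cuspCount N := by exact_mod_cast key
  linarith

end Fermat.Agent.S20
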