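import Fermat.Statements.S21
import Fermat.Agent.S21.Count
import Fermat.Agent.S21.MaxPrinciple

set_option autoImplicit false
set_option linter.unusedSectionVars false
open ModularCurve

namespace Fermat.Agent.S21

open ModularCurve.Period CongruenceSubgroup UpperHalfPlane

section assembly

variable (N : ℕ) [NeZero N]

/-- inclusion of bundled cusp forms into `MF`. -/
noncomputable def cuspIncl : CuspForm (Gamma0 N) 2 →ₗ[ℂ] MF (Gamma0 N) 2 where
  toFun f := ⟨f, coe_cuspForm_mem_MF N f⟩
  map_add' _ _ := rfl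
  map_smul' _ _ := rfl

theorem cuspIncl_injective : Function.Injective (cuspIncl N) := by
  intro f g h
  have : (f : ℍ → ℂ) = g := congrArg Subtype.val h
  exact DFunLike.coe_injective this

theorem cuspIncl_mem_CF (f : CuspForm (Gamma0 N) 2) :
    ((cuspIncl N f : MF (Gamma0 N) 2) : ℍ → ℂ) ∈ CF (Gamma0 N) 2 :=
  coe_cuspForm_mem_CF N f

theorem existsPeriodMapLinear : ExistsPeriodMapLinear N :=
  ⟨perHom N ∘ₗ cuspIncl N, fun f => (periodMap_eq_perHom N f).symm⟩

/-- explicit formula for the frozen `periodHomPair`. -/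
theorem periodHomPair_apply (f g : CuspForm (Gamma0 N) 2) :
    periodHomPair N (f, g) = perHom N (cuspIncl N (f + g))
      + charInvolution N ℂ ℂ (perHom N (cuspIncl N (f - g))) := by
  obtain ⟨pml, hpml, heq⟩ := periodHomPair_def N (existsPeriodMapLinear N)
  have h1 : ∀ f, pml f = perHom N (cuspIncl N f) := fun f => by
    rw [hpml f, periodMap_eq_perHom N f]; rfl
  rw [heq]
  simp only [LinearMap.coprod_apply, LinearMap.comp_apply, LinearMap.add_apply,
    LinearMap.sub_apply, LinearMap.id_apply, h1, map_add, map_sub]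
  abel

/-- the extended period map on `M₂ × S₂`. -/
noncomputable def bigPer :
    (MF (Gamma0 N) 2 × CF (Gamma0 N) 2) →ₗ[ℂ] (Additive (Gamma0 N) →+ ℂ) :=
  LinearMap.coprod (perHom N)
    (charInvolution N ℂ ℂ ∘ₗ perHom N ∘ₗ Submodule.inclusion (CF_le_MF (Gamma0 N) 2))

theorem bigPer_apply (f : MF (Gamma0 N) 2) (g : CF (Gamma0 N) 2) :
    bigPer N (f, g) = perHom N f + charInvolution N ℂ ℂ
      (perHom N (Submodule.inclusion (CF_le_MF (Gamma0 N) 2) g)) := rfl

theorem invol_perHom_parabolic (g : CF (Gamma0 N) 2) :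
    charInvolution N ℂ ℂ (perHom N (Submodule.inclusion (CF_le_MF (Gamma0 N) 2) g))
      ∈ parabolicHoms ℂ (Gamma0 N) ℂ :=
  charInvolution_mem_parabolicHoms N ℂ ℂ (perHom_mem_parabolicHoms N _ g.2)

theorem bigPer_injective : Function.Injective (bigPer N) := by
  rw [injective_iff_map_eq_zero]
  rintro ⟨f, g⟩ h
  rw [bigPer_apply] at h
  have hf : perHom N f ∈ parabolicHoms ℂ (Gamma0 N) ℂ := by
    rw [eq_neg_of_add_eq_zero_left h]
    exact neg_mem (invol_perHom_parabolic N g)
  have hfc := mem_CF_of_perHom_parabolic N f hf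
  obtain ⟨h1, h2⟩ := perHom_injective_cusp N f _ hfc g.2 h
  have h3 : g = 0 := by
    apply Subtype.ext
    have h4 := congrArg (fun t : MF (Gamma0 N) 2 => (t : ℍ → ℂ)) h2
    exact h4
  rw [h1, h3]; rfl

theorem bigPer_surjective : Function.Surjective (bigPer N) := by
  have := finite_MF_two N
  have := finite_CF_two N
  have := (group_bound (Gamma0 N) (neg_one_mem_Gamma0 N)).1
  have hle := finrank_hom_le N
  have hinj := bigPer_injective N
  have hle2 := LinearMap.finrank_le_finrank_of_injective hinj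
  rw [Module.finrank_prod] at hle2
  refine (LinearMap.injective_iff_surjective_of_finrank_eq_finrank ?_).mp hinj
  rw [Module.finrank_prod]
  omega

end assembly

theorem result (N : ℕ) [NeZero N] :
    Function.Injective (ModularCurve.periodHomPair N)
      ∧ LinearMap.range (ModularCurve.periodHomPair N)
          = ModularCurve.Period.parabolicHoms ℂ (CongruenceSubgroup.Gamma0 N) ℂ := by
  constructor
  · rw [injective_iff_map_eq_zero]
    rintro ⟨f, g⟩ h
    rw [periodHomPair_apply] at h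
    obtain ⟨h1, h2⟩ := perHom_injective_cusp N _ _ (cuspIncl_mem_CF N _) (cuspIncl_mem_CF N _) h
    have h1' : f + g = 0 := cuspIncl_injective N (by rw [h1, map_zero])
    have h2' : f - g = 0 := cuspIncl_injective N (by rw [h2, map_zero])
    have hfg : f = g := sub_eq_zero.mp h2'
    have hf : f = 0 := by
      have h3 : (2 : ℂ) • f = 0 := by rw [two_smul]; nth_rewrite 2 [hfg]; exact h1'
      exact (smul_eq_zero.mp h3).resolve_left two_ne_zero
    rw [← hfg, hf]; rfl
  · apply le_antisymm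
    · rintro _ ⟨⟨f, g⟩, rfl⟩
      rw [periodHomPair_apply]
      exact add_mem (perHom_mem_parabolicHoms N _ (cuspIncl_mem_CF N _))
        (charInvolution_mem_parabolicHoms N ℂ ℂ
          (perHom_mem_parabolicHoms N _ (cuspIncl_mem_CF N _)))
    · intro φ hφ
      obtain ⟨⟨f, g⟩, hfg⟩ := bigPer_surjective N φ
      rw [bigPer_apply] at hfg
      have hf : perHom N f ∈ parabolicHoms ℂ (Gamma0 N) ℂ := by
        rw [eq_sub_of_add_eq hfg]
        exact sub_mem hφ (invol_perHom_parabolic N g)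
      have hfc := mem_CF_of_perHom_parabolic N f hf
      obtain ⟨f₁, hf₁⟩ := mem_CF_iff_exists.mp hfc
      obtain ⟨g₁, hg₁⟩ := mem_CF_iff_exists.mp g.2
      refine ⟨((2 : ℂ)⁻¹ • (f₁ + g₁), (2 : ℂ)⁻¹ • (f₁ - g₁)), ?_⟩
      rw [periodHomPair_apply, ← hfg]
      have e1 : (2 : ℂ)⁻¹ • (f₁ + g₁) + (2 : ℂ)⁻¹ • (f₁ - g₁) = f₁ := by
        rw [← smul_add, show f₁ + g₁ + (f₁ - g₁) = (2 : ℂ) • f₁ by rw [two_smul]; abel,
          smul_smul, inv_mul_cancel₀ two_ne_zero, one_smul]
      have e2 : (2 : ℂ)⁻¹ • (f₁ + g₁) - (2 : ℂ)⁻¹ • (f₁ - g₁) = g₁ := by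
        rw [← smul_sub, show f₁ + g₁ - (f₁ - g₁) = (2 : ℂ) • g₁ by rw [two_smul]; abel,
          smul_smul, inv_mul_cancel₀ two_ne_zero, one_smul]
      rw [e1, e2]
      have e3 : cuspIncl N f₁ = f := Subtype.ext hf₁
      have e4 : cuspIncl N g₁ = Submodule.inclusion (CF_le_MF (Gamma0 N) 2) g := Subtype.ext hg₁
      rw [e3, e4]

end Fermat.Agent.S21
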