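/-!
# Notes

This file contains no declarations. It records that the statements with a file `Fermat/Agent/SNN.lean`
were checked together in one joint run of the local grader at 04:19Z (46 statements, all passing).
-/
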