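import Fermat.Statements.S02

set_option autoImplicit false
open FreyPackage

namespace Fermat.Agent.S02

/-- Step 1: make `a`, `b` coprime. -/
theorem coprime_step (a b c : ℤ) (ha : a ≠ 0) (hb : b ≠ 0) (hc : c ≠ 0) (p : ℕ) (hp : p ≠ 0)
    (H : a ^ p + b ^ p = c ^ p) :
    ∃ a' b' c' : ℤ, a' ≠ 0 ∧ b' ≠ 0 ∧ c' ≠ 0 ∧ IsCoprime a' b' ∧ a' ^ p + b' ^ p = c' ^ p := by
  obtain ⟨g, a', b', hg0, hcop, ha', hb'⟩ := Int.exists_gcd_one' (m := a) (n := b)
    (Int.gcd_pos_of_ne_zero_left b ha)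
  set d : ℤ := (g : ℤ) with hd
  have hd0 : d ≠ 0 := by
    intro h
    rw [h, mul_zero] at ha'
    exact ha ha'
  have hdc : d ∣ c := by
    rw [← Int.pow_dvd_pow_iff hp, ← H, ha', hb', mul_pow, mul_pow]
    exact dvd_add (Dvd.intro_left _ rfl) (Dvd.intro_left _ rfl)
  obtain ⟨c', hc'⟩ := hdc
  refine ⟨a', b', c', ?_, ?_, ?_, ?_, ?_⟩
  · rintro rfl; apply ha; rw [ha', zero_mul]
  · rintro rfl; apply hb; rw [hb', zero_mul]
  · rintro rfl; apply hc; rw [hc', mul_zero]
  · exact Int.isCoprime_iff_gcd_eq_one.2 hcop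
  · have hdp : d ^ p ≠ 0 := pow_ne_zero _ hd0
    apply mul_left_cancel₀ hdp
    rw [ha', hb', hc'] at H
    linear_combination H

/-- Final packaging once `a` is odd and `b` is even. -/
theorem package_step (a b c : ℤ) (ha : a ≠ 0) (hb : b ≠ 0) (hc : c ≠ 0) (p : ℕ) (pp : p.Prime)
    (hp5 : 5 ≤ p) (H : a ^ p + b ^ p = c ^ p) (hcop : IsCoprime a b) (hao : Odd a)
    (hbe : Even b) : Nonempty FreyPackage := by
  have hpodd : Odd p := pp.odd_of_ne_two (by omega)
  have hb2 : ∀ x : ℤ, Even x → ((x : ℤ) : ZMod 2) = 0 := by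
    intro x hx
    rw [ZMod.intCast_zmod_eq_zero_iff_dvd]
    exact_mod_cast hx.two_dvd
  have hg : ∀ x y : ℤ, IsCoprime x y → gcd x y = 1 := by
    intro x y hxy
    have := Int.isCoprime_iff_gcd_eq_one.1 hxy
    change ((Int.gcd x y : ℕ) : ℤ) = 1
    exact_mod_cast this
  rcases Int.odd_iff.1 hao with h2
  have h4 : a % 4 = 1 ∨ a % 4 = 3 := by omega
  rcases h4 with h4 | h4
  · refine ⟨⟨-a, -b, -c, neg_ne_zero.2 ha, neg_ne_zero.2 hb, neg_ne_zero.2 hc, p, pp, hp5, ?_,
      hg _ _ (hcop.neg_neg), ?_, hb2 _ hbe.neg⟩⟩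
    · rw [hpodd.neg_pow, hpodd.neg_pow, hpodd.neg_pow, ← H]; ring
    · have : ((-a : ℤ) : ZMod 4) = ((3 : ℤ) : ZMod 4) := by
        rw [ZMod.intCast_eq_intCast_iff_dvd_sub]
        have : ((4 : ℕ) : ℤ) = 4 := rfl
        rw [this]
        omega
      rw [this]; rfl
  · refine ⟨⟨a, b, c, ha, hb, hc, p, pp, hp5, H, hg _ _ hcop, ?_, hb2 _ hbe⟩⟩
    have : ((a : ℤ) : ZMod 4) = ((3 : ℤ) : ZMod 4) := by
      rw [ZMod.intCast_eq_intCast_iff_dvd_sub]
      have : ((4 : ℕ) : ℤ) = 4 := rfl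
      rw [this]
      omega
    rw [this]; rfl

theorem result (a b c : ℤ) (ha : a ≠ 0) (hb : b ≠ 0) (hc : c ≠ 0) (p : ℕ) (pp : p.Prime) (hp5 : 5 ≤ p) (H : a ^ p + b ^ p = c ^ p) : Nonempty FreyPackage := by
  have hp0 : p ≠ 0 := by omega
  have hpodd : Odd p := pp.odd_of_ne_two (by omega)
  obtain ⟨a, b, c, ha, hb, hc, hcop, H⟩ := coprime_step a b c ha hb hc p hp0 H
  rcases Int.even_or_odd b with hbe | hbo
  · -- `b` even, so `a` odd
    have hao : Odd a := by
      rcases Int.even_or_odd a with hae | hao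
      · exfalso
        have h2 : IsUnit (2 : ℤ) := hcop.isUnit_of_dvd' hae.two_dvd hbe.two_dvd
        exact absurd h2 (by decide)
      · exact hao
    exact package_step a b c ha hb hc p pp hp5 H hcop hao hbe
  · rcases Int.even_or_odd a with hae | hao
    · -- swap
      exact package_step b a c hb ha hc p pp hp5 (by rw [add_comm]; exact H) hcop.symm hbo hae
    · -- both odd so `c` even
      have hce : Even c := by
        have h1 : Even (c ^ p) := by
          rw [← H]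
          exact (hao.pow).add_odd (hbo.pow)
        exact (Int.even_pow.1 h1).1
      have hcop' : IsCoprime a (-c) := by
        rw [IsCoprime.neg_right_iff]
        have h1 : IsCoprime (a ^ p) (b ^ p) := hcop.pow
        have h2 : IsCoprime (a ^ p) (c ^ p) := by
          rw [← H]
          have := (IsCoprime.add_mul_left_right_iff (x := a ^ p) (y := b ^ p) (z := 1)).2 h1
          simpa [add_comm] using this
        exact (IsCoprime.pow_iff (Nat.pos_of_ne_zero hp0) (Nat.pos_of_ne_zero hp0)).1 h2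
      refine package_step a (-c) (-b) ha (neg_ne_zero.2 hc) (neg_ne_zero.2 hb) p pp hp5 ?_ hcop'
        hao hce.neg
      rw [hpodd.neg_pow, hpodd.neg_pow, ← H]; ring

end Fermat.Agent.S02
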