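-- Statement S07 (row 7): every weight-2 cusp form of level Gamma0(2) is zero.
-- Proof: Sturm bound from the prelude; the bound is 0 because the index of Gamma0(2) is at most 4.
import Fermat.Statements.S07
import Fermat.Prelude.Thm_ModularForm_sturm_bound_Gamma0
import Fermat.Prelude.Thm_CongruenceSubgroup_one_mem_strictPeriods_Gamma0

set_option autoImplicit false
open WeierstrassCurve WeierstrassCurve.Affine WeierstrassCurve.Affine.Point
open CuspForm ModularFormClass UpperHalfPlane
open ModularForm

namespace Fermat.Agent.S07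

open scoped MatrixGroups

/-- First column mod 2. -/
def col (γ : SL(2, ℤ)) : ZMod 2 × ZMod 2 := (((γ 0 0 : ℤ) : ZMod 2), ((γ 1 0 : ℤ) : ZMod 2))

lemma mem_of_col_eq (γ γ' : SL(2, ℤ)) (h : col γ = col γ') :
    γ⁻¹ * γ' ∈ CongruenceSubgroup.Gamma0 2 := by
  rw [CongruenceSubgroup.Gamma0_mem]
  simp only [col, Prod.mk.injEq] at h
  obtain ⟨h1, h2⟩ := h
  have : ((γ⁻¹ * γ') 1 0 : ℤ) = - γ 1 0 * γ' 0 0 + γ 0 0 * γ' 1 0 := by
    rw [Matrix.SpecialLinearGroup.coe_mul, Matrix.SpecialLinearGroup.coe_inv,
      Matrix.adjugate_fin_two, Matrix.mul_apply, Fin.sum_univ_two]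
    simp
  rw [this]
  push_cast
  rw [h1, h2]
  ring

lemma index_Gamma0_two_le : (CongruenceSubgroup.Gamma0 2).index ≤ 4 := by
  classical
  have hinj : Function.Injective
      (fun x : SL(2, ℤ) ⧸ CongruenceSubgroup.Gamma0 2 => col x.out) := by
    intro x y hxy
    have := mem_of_col_eq _ _ hxy
    rw [← QuotientGroup.eq] at this
    simpa using this
  have := Nat.card_le_card_of_injective _ hinj
  simpa [Subgroup.index, Nat.card_prod] using this

theorem result (f : CuspForm (CongruenceSubgroup.Gamma0 2) 2) : f = 0 := by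
  have hidx := index_Gamma0_two_le
  have h0 : (CuspForm.toModularFormₗ f) = 0 := by
    apply ModularForm.sturm_bound_Gamma0 2
    intro n hn
    have hb : ((2 : ℤ) * ((CongruenceSubgroup.Gamma0 2).index : ℤ)).toNat / 12 = 0 := by
      apply Nat.div_eq_of_lt
      omega
    rw [hb] at hn
    obtain rfl : n = 0 := by omega
    exact CuspFormClass.qExpansion_coeff_zero f one_pos
      (CongruenceSubgroup.one_mem_strictPeriods_Gamma0 2)
  exact CuspForm.toModularFormₗ_injective (by simpa using h0)

end Fermat.Agent.S07
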