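import Fermat.Statements.S08
-- import your own Fermat.Agent.* helpers here

set_option autoImplicit false
open WeierstrassCurve WeierstrassCurve.Affine WeierstrassCurve.Affine.Point
open CuspForm ModularFormClass UpperHalfPlane
open ModularForm

namespace Fermat.Agent.S08

open scoped MatrixGroups in
theorem gamma0_one_eq_top : CongruenceSubgroup.Gamma0 1 = ⊤ := by
  ext A
  simp only [CongruenceSubgroup.Gamma0_mem, Subgroup.mem_top, iff_true]
  exact Subsingleton.elim _ _

open scoped MatrixGroups in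
theorem gamma0_one_mapGL :
    ((CongruenceSubgroup.Gamma0 1 : Subgroup SL(2, ℤ)) : Subgroup (GL (Fin 2) ℝ)) = 𝒮ℒ := by
  rw [gamma0_one_eq_top]
  exact (MonoidHom.range_eq_map _).symm

theorem eq_zero_of_subgroup_eq {Γ Γ' : Subgroup (GL (Fin 2) ℝ)} (h : Γ = Γ')
    (H : ∀ g : CuspForm Γ' 2, g = 0) (f : CuspForm Γ 2) : f = 0 := by
  subst h
  exact H f

theorem result (f : CuspForm (CongruenceSubgroup.Gamma0 1) 2) : f = 0 := by
  refine eq_zero_of_subgroup_eq gamma0_one_mapGL ?_ f
  exact rank_zero_iff_forall_zero.mp (CuspForm.rank_eq_zero_of_weight_lt_twelve (by norm_num))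

end Fermat.Agent.S08
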