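-- Statement S10: the mod-p representation of the Frey curve has no Galois-stable cofixed line
-- when p ∈ {5, 7, 13}.  Proof: there is no Frey package with such an exponent, by Kummer's proof of
-- Fermat's Last Theorem for these exponents (the cyclotomic rings are principal ideal domains).
import Fermat.Statements.S10
import Fermat.Agent.S11.NoFrey
import Fermat.Agent.Kummer.SophieGermain
import Fermat.Agent.S10.PID7
import Fermat.Agent.S10.PID13
import Fermat.Agent.S10.KummerInstances

set_option autoImplicit false
open WeierstrassCurve WeierstrassCurve.Affine WeierstrassCurve.Affine.Point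
open CuspForm ModularFormClass UpperHalfPlane
open FreyPackage

namespace Fermat.Agent.S10

theorem no_freyPackage_five (P : FreyPackage) (hP : P.p = 5) : False := by
  haveI : Fact (Nat.Prime 5) := ⟨by norm_num⟩
  haveI : IsCyclotomicExtension {5} ℚ (CyclotomicField 5 ℚ) :=
    CyclotomicField.isCyclotomicExtension 5 ℚ
  exact Fermat.Agent.S11.no_freyPackage_of 5 (by norm_num) (CyclotomicField 5 ℚ)
    Fermat.Agent.Kummer.caseI_five (IsCyclotomicExtension.Rat.five_pid (CyclotomicField 5 ℚ))
    (fun u n h => kummer_five (CyclotomicField 5 ℚ) u n h) P hP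

theorem no_freyPackage_seven (P : FreyPackage) (hP : P.p = 7) : False := by
  haveI : Fact (Nat.Prime 7) := ⟨by norm_num⟩
  haveI : IsCyclotomicExtension {7} ℚ (CyclotomicField 7 ℚ) :=
    CyclotomicField.isCyclotomicExtension 7 ℚ
  exact Fermat.Agent.S11.no_freyPackage_of 7 (by norm_num) (CyclotomicField 7 ℚ)
    Fermat.Agent.Kummer.caseI_seven pid_seven
    (fun u n h => kummer_seven (CyclotomicField 7 ℚ) u n h) P hP

theorem no_freyPackage_thirteen (P : FreyPackage) (hP : P.p = 13) : False := by
  haveI : Fact (Nat.Prime 13) := ⟨by norm_num⟩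
  haveI : IsCyclotomicExtension {13} ℚ (CyclotomicField 13 ℚ) :=
    CyclotomicField.isCyclotomicExtension 13 ℚ
  exact Fermat.Agent.S11.no_freyPackage_of 13 (by norm_num) (CyclotomicField 13 ℚ)
    Fermat.Agent.Kummer.caseI_thirteen pid_thirteen
    (fun u n h => kummer_thirteen (CyclotomicField 13 ℚ) u n h) P hP

theorem result (P : FreyPackage) (hp : P.p = 5 ∨ P.p = 7 ∨ P.p = 13) : ¬ HasGaloisStableCofixedLine (K := AlgebraicClosure ℚ) ℚ P.freyCurve P.p := by
  rcases hp with hp | hp | hp
  · exact (no_freyPackage_five P hp).elim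
  · exact (no_freyPackage_seven P hp).elim
  · exact (no_freyPackage_thirteen P hp).elim

end Fermat.Agent.S10
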