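-- Statement S11: vacuous, because classical FLT holds for the exponent 11
-- (Sophie Germain for case I; Kummer descent in the PID `ℤ[ζ_11]` for case II).
import Fermat.Statements.S11
import Fermat.Agent.S11.NoFrey
import Fermat.Agent.Kummer.SophieGermain
import Fermat.Agent.S10.PID11
import Fermat.Agent.S10.KummerInstances

set_option autoImplicit false
open WeierstrassCurve WeierstrassCurve.Affine WeierstrassCurve.Affine.Point
open CuspForm ModularFormClass UpperHalfPlane
open FreyPackage

namespace Fermat.Agent.S11

theorem result (P : FreyPackage) (hp : P.p = 11) : ¬ HasGaloisStableCofixedLine (K := AlgebraicClosure ℚ) ℚ P.freyCurve P.p := by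
  exfalso
  have : Fact (Nat.Prime 11) := ⟨by norm_num⟩
  have hc : IsCyclotomicExtension {11} ℚ (CyclotomicField 11 ℚ) :=
    CyclotomicField.isCyclotomicExtension 11 ℚ
  exact no_freyPackage_of 11 (by norm_num) (CyclotomicField 11 ℚ)
    Fermat.Agent.Kummer.caseI_eleven Fermat.Agent.S10.pid_eleven
    (fun u n h => Fermat.Agent.S10.kummer_eleven _ u n h) P hp

end Fermat.Agent.S11
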