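import Fermat.Statements.S09
import Fermat.Agent.S10
import Fermat.Agent.S11
import Fermat.Agent.S12
import Fermat.Agent.S13

set_option autoImplicit false
open WeierstrassCurve WeierstrassCurve.Affine WeierstrassCurve.Affine.Point
open CuspForm ModularFormClass UpperHalfPlane
open FreyPackage

namespace Fermat.Agent.S09

theorem result (P : FreyPackage) : GaloisRepIsIrreducible (K := AlgebraicClosure ℚ) ℚ P.freyCurve P.p := by
  by_contra hred
  have h := Fermat.Agent.S13.result P hred
  by_cases h17 : 17 ≤ P.p
  · exact Fermat.Agent.S12.result P h17 h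
  · have h5 := P.hp5
    have hpp := P.pp
    have hlt : P.p < 17 := not_le.mp h17
    have hcases : P.p = 5 ∨ P.p = 7 ∨ P.p = 11 ∨ P.p = 13 := by
      generalize P.p = n at h5 hpp hlt
      interval_cases n <;> first | (exfalso; revert hpp; norm_num; done) | simp
    rcases hcases with h' | h' | h' | h'
    · exact Fermat.Agent.S10.result P (Or.inl h') h
    · exact Fermat.Agent.S10.result P (Or.inr (Or.inl h')) h
    · exact Fermat.Agent.S11.result P h' h
    · exact Fermat.Agent.S10.result P (Or.inr (Or.inr h')) h

end Fermat.Agent.S09
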