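-- Statement S14: `ExtCitation.ExtVanishingCts p` for every prime `p ≥ 3`.
-- Proof: bridge to an everywhere unramified Kummer extension of `ℚ(ζ_p)` in the `ω²`-eigenspace
-- (`BR_bridge`), which cannot exist (`CORE_five`: Thaine's theorem + analytic density of primes in
-- ideal classes + cyclotomic units; `CORE_three` for `p = 3`).
import Fermat.Statements.S14
import Fermat.Agent.S14.BR
import Fermat.Agent.S14.Core3
import Fermat.Agent.S14.Core5

set_option autoImplicit false
open ExtCitation

namespace Fermat.Agent.S14

theorem result {p : ℕ} [Fact p.Prime] (h3 : 3 ≤ p) :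
    ExtCitation.ExtVanishingCts p := by
  intro V _ _ _ _ C hadm
  by_contra hns
  obtain ⟨K, M, _, _, _, _, _, _, _, A, α, hunr, hα, hA, heig, hno⟩ := BR_bridge h3 V C hadm hns
  apply hno
  by_cases h5 : 5 ≤ p
  · exact CORE_five p K h5 M hunr A α hα hA heig
  · have hp : p = 3 := by
      have hpr : p.Prime := Fact.out
      interval_cases p
      · rfl
      · exact absurd hpr (by norm_num)
    exact CORE_three p K hp M hunr A α hα hA

end Fermat.Agent.S14
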