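import Fermat.Statements.S16
import Fermat.Agent.S16.Duality
import Fermat.Agent.S16.Shimura.Main
import Fermat.Agent.S16.PartB
import Fermat.Agent.S23

set_option autoImplicit false
open ModularCurve CuspForm
open ModularCurve

namespace Fermat.Agent.S16

theorem sigmaP_cast_duality (p j : ℕ) : Duality.sigmaP p j = (sigmaP p j : ℤ) := by
  simp [Duality.sigmaP, sigmaP]

theorem result
    (p : ℕ) [Fact p.Prime] :
    Nat.card (↥(heckeLatticeAlgebra p ∅) ⧸
        Ideal.map ((latticeRestrictHom p ∅).toRingHom.comp (heckeEvalForms p 2))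
          (eisensteinIdeal p)) =
      eisensteinNumerator p := by
  have hp : p.Prime := Fact.out
  haveI : NeZero p := ⟨hp.ne_zero⟩
  have hn : 0 < eisensteinNumerator p := by
    unfold eisensteinNumerator
    have h1 : 0 < p - 1 := by have := hp.two_le; omega
    exact Nat.div_pos (Nat.le_of_dvd h1 (Nat.gcd_dvd_left _ _)) (Nat.gcd_pos_of_pos_left _ h1)
  refine Duality.card_quotient_of_A'B p (eisensteinNumerator p) (Fermat.Agent.S23.result p)
    (fun Q hQ => Shimura.eisensteinNumerator_dvd p Q hQ) ?_
  intro k f hf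
  have hq : ∀ j, (Fermat.Agent.S23.qe (⇑f)).coeff j = ModularFormClass.qCoeff (⇑f) j :=
    fun _ => rfl
  rcases Nat.eq_zero_or_pos k with rfl | hk
  · exfalso
    have h2 : 2 * eisensteinNumerator p ∣ eisensteinNumerator p :=
      partB hp (2 * eisensteinNumerator p) (by positivity) f ⟨f, rfl⟩ fun j hj => by
        obtain ⟨m, hm⟩ := hf j hj
        refine ⟨0, ?_⟩
        rw [hq, hm, sigmaP_cast_duality]
        push_cast
        ring
    have := Nat.le_of_dvd hn h2
    omega
  · refine partB hp k hk f ⟨f, rfl⟩ fun j hj => ?_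
    obtain ⟨m, hm⟩ := hf j hj
    refine ⟨m, ?_⟩
    rw [hq, hm, sigmaP_cast_duality]
    push_cast
    ring

end Fermat.Agent.S16
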