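import Fermat.Statements.S19
import Fermat.Agent.S19.Wire
import Fermat.Agent.S19.Mod.Base

set_option autoImplicit false
open ModularCurve
open ModularCurve

namespace Fermat.Agent.S19

theorem result
    (p : ℕ) [NeZero p] (ℓ : ℕ) [Fact ℓ.Prime] (hℓp : ¬ ℓ ∣ p) (k : ℕ) :
    ∃ (H : Type) (_ : CommRing H) (_ : HopfAlgebra (GaloisRep.ratLocalizedAt ℓ) H),
      Module.Finite (GaloisRep.ratLocalizedAt ℓ) H ∧ Module.Flat (GaloisRep.ratLocalizedAt ℓ) H ∧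
      Coalgebra.IsCocomm (GaloisRep.ratLocalizedAt ℓ) H ∧
      ∃ e : WithConv (H →ₐ[GaloisRep.ratLocalizedAt ℓ] AlgebraicClosure ℚ) ≃
          ↥(Submodule.torsionBy ℤ (JZero p) ((ℓ : ℤ) ^ k)),
        (∀ f g, e (f * g) = e f + e g) ∧
        ∀ (σ : AlgebraicClosure ℚ ≃ₐ[ℚ] AlgebraicClosure ℚ)
          (f g : WithConv (H →ₐ[GaloisRep.ratLocalizedAt ℓ] AlgebraicClosure ℚ)),
          (∀ h : H, g h = σ (f h)) → ((e g : JZero p)) = σ • (e f : JZero p) := by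
  have hℓ : ℓ.Prime := Fact.out
  refine LD.result_of (LD.hasFlatModel_of_admissible hℓ (Wire.subquotClosed ℓ)
    (fun M _ hM hadm k => ?_) p hℓp k)
  obtain ⟨xh, β, n, hx⟩ := Crux.GM.exists_goodCoord M ℓ hℓ hM hadm
  obtain ⟨A, hA⟩ := S54.exists_liesOverPrime ℓ hℓ
  exact Wire.hasFlatModel_of_ratStr hA
    ⟨S37.Mod.isChart_goodCoord hℓ hx hA, S37.Mod.isChart_goodCoord_inv hℓ hx hA⟩
    (Mod.ratStr hℓ hx hA) k

end Fermat.Agent.S19
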