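import Fermat.Statements.S24
import Fermat.Agent.S24.Counting
import Fermat.Agent.S24.ConstellationGenus
import Fermat.Agent.S24.Orbits
import Fermat.Agent.Gamma0Comb.All
import Fermat.Agent.S24.FF.RiemannHurwitz
import Fermat.Agent.S24.Packages

set_option autoImplicit false
open ModularCurve AlgebraicCurve KaehlerDifferential
open scoped MatrixGroups IntermediateField

namespace Fermat.Agent.S24

instance instFiniteXN (N : ℕ) [NeZero N] : Finite (XN N) := by
  have : (CongruenceSubgroup.Gamma0 N).FiniteIndex := inferInstance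
  exact Subgroup.finite_quotient_of_finiteIndex

theorem orbCount_one {G X : Type*} [Group G] [MulAction G X] :
    orbCount X (1 : G) = Nat.card X := by
  unfold orbCount
  refine (Nat.card_congr (Equiv.ofBijective (Quotient.mk _) ⟨?_, Quotient.mk_surjective⟩)).symm
  intro a b hab
  have h := Quotient.exact hab
  change a ∈ MulAction.orbit _ b at h
  obtain ⟨⟨g, hg⟩, rfl⟩ := h
  rw [Subgroup.zpowers_one_eq_bot, Subgroup.mem_bot] at hg
  subst hg
  exact one_smul _ _

theorem smul_XN_of_mem (N : ℕ) (z : SL(2, ℤ)) (hz : ∀ g : SL(2, ℤ), g⁻¹ * z * g ∈ CongruenceSubgroup.Gamma0 N)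
    (x : XN N) : z • x = x := by
  induction x using QuotientGroup.induction_on with
  | H g =>
    rw [MulAction.Quotient.smul_mk, eq_comm, QuotientGroup.eq]
    simpa [mul_assoc] using hz g

theorem neg_one_mem_Gamma0 (N : ℕ) : (-1 : SL(2, ℤ)) ∈ CongruenceSubgroup.Gamma0 N := by
  simp [CongruenceSubgroup.Gamma0_mem]

theorem S_mul_S : ModularGroup.S * ModularGroup.S = -1 := by
  decide

theorem ST_cube : (ModularGroup.S * ModularGroup.T) * (ModularGroup.S * ModularGroup.T)
    * (ModularGroup.S * ModularGroup.T) = -1 := by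
  decide

theorem neg_one_smul_XN (N : ℕ) (x : XN N) : (-1 : SL(2, ℤ)) • x = x := by
  apply smul_XN_of_mem
  intro g
  have : g⁻¹ * -1 * g = -1 := by simp
  rw [this]
  exact neg_one_mem_Gamma0 N

theorem degree_canonical (N : ℕ) [NeZero N] (ω : Ω[FN N⁄Kb]) (hω : ω ≠ 0)
    (D : Divisor Kb (FN N)) (hD : ∀ v, D v = v.ordDifferential ω) :
    ∃ g : ℕ, Divisor.degree D = 2 * (g : ℤ) - 2 ∧ (g : ℚ) = genusFormula N := by
  classical
  have := finiteDimensional_FN N
  have hx := transcendental_jN N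
  have hn := finrank_FN N
  -- generic points
  have hgen : ∀ c : Kb, c ∉ ({0, 1728} : Finset Kb) →
      Nat.card (zeroPlaces Kb (jN N - algebraMap Kb (FN N) c))
        = Module.finrank Kb⟮jN N⟯ (FN N) := by
    intro c hc
    simp only [Finset.mem_insert, Finset.mem_singleton, not_or] at hc
    obtain ⟨σ, hσ, hσx, hord⟩ := package_generic N c hc.1 hc.2
    have := card_zeroPlaces_of_package (K := Kb) (jN N) (jN N - algebraMap Kb (FN N) c) hx
      (FF.adjoin_simple_sub_algebraMap Kb _ _) (G := SL(2, ℤ)) σ hσ hn.symm hσx 1 one_pos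
      (by simpa using hord) 1 IsPrimitiveRoot.one 1 (by simp)
    rw [this, hn, orbCount_one]
  have hI : Nat.card (zeroPlaces Kb (jN N - algebraMap Kb (FN N) 1728))
      = orbCount (XN N) ModularGroup.S := by
    obtain ⟨σ, hσ, hσx, hord, hΘ⟩ := package_I N
    exact card_zeroPlaces_of_package (K := Kb) (jN N) (jN N - algebraMap Kb (FN N) 1728) hx
      (FF.adjoin_simple_sub_algebraMap Kb _ _) (G := SL(2, ℤ)) σ hσ hn.symm hσx 2 two_pos
      (by simpa using hord) (-1) (IsPrimitiveRoot.neg_one 0 (by norm_num)) ModularGroup.S hΘ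
  have hρ : Nat.card (zeroPlaces Kb (jN N - algebraMap Kb (FN N) 0))
      = orbCount (XN N) (ModularGroup.S * ModularGroup.T) := by
    obtain ⟨σ, ζ, hσ, hζ, hσx, hord, hΘ⟩ := package_rho N
    exact card_zeroPlaces_of_package (K := Kb) (jN N) (jN N - algebraMap Kb (FN N) 0) hx
      (FF.adjoin_simple_sub_algebraMap Kb _ _) (G := SL(2, ℤ)) σ hσ hn.symm hσx 3 (by norm_num)
      (by simpa using hord) ζ hζ _ hΘ
  have hcusp : Nat.card (zeroPlaces Kb (jN N)⁻¹) = orbCount (XN N) ModularGroup.T := by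
    obtain ⟨σ, ζ, hσ, hζ, hσx, hord, hΘ⟩ := package_cusp N
    exact card_zeroPlaces_of_package (K := Kb) (jN N) (jN N)⁻¹ hx
      (FF.adjoin_simple_inv Kb _) (G := SL(2, ℤ)) σ hσ hn.symm hσx N (Nat.pos_of_ne_zero (NeZero.ne N))
      hord ζ hζ _ hΘ
  have hdeg := FF.riemann_hurwitz Kb (jN N) hx {0, 1728} hgen hω D hD
  change Divisor.degree D = -2 * (Module.finrank Kb⟮jN N⟯ (FN N) : ℤ)
      + ((Module.finrank Kb⟮jN N⟯ (FN N) : ℤ) - Nat.card (zeroPlaces Kb (jN N)⁻¹))
      + ∑ c ∈ ({0, 1728} : Finset Kb), ((Module.finrank Kb⟮jN N⟯ (FN N) : ℤ)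
          - Nat.card (zeroPlaces Kb (jN N - algebraMap Kb (FN N) c))) at hdeg
  have h01728 : (0 : Kb) ≠ 1728 := by norm_num
  rw [Finset.sum_pair h01728, hI, hρ, hcusp, hn] at hdeg
  obtain ⟨g, hg⟩ := constellation_genus (G := SL(2, ℤ)) (X := XN N) ModularGroup.S ModularGroup.T
    SpecialLinearGroup.SL2Z_generators
  have h2 := two_mul_card_orbits (G := SL(2, ℤ)) (X := XN N) ModularGroup.S
    (fun x => by rw [S_mul_S]; exact neg_one_smul_XN N x)
  have h3 := three_mul_card_orbits (G := SL(2, ℤ)) (X := XN N) (ModularGroup.S * ModularGroup.T)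
    (fun x => by rw [ST_cube]; exact neg_one_smul_XN N x)
  rw [show Nat.card (MulAction.fixedBy (XN N) ModularGroup.S) = nuTwo N from
    Gamma0Comb.card_fixedBy_S] at h2
  rw [show Nat.card (MulAction.fixedBy (XN N) (ModularGroup.S * ModularGroup.T)) = nuThree N from
    Gamma0Comb.card_fixedBy_ST] at h3
  have hidx : Nat.card (XN N) = dedekindPsi N := by
    rw [← Gamma0Comb.index_Gamma0 N]; rfl
  have hT : orbCount (XN N) ModularGroup.T = cuspCount N := Gamma0Comb.card_orbits_T
  rw [hT] at hg hdeg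
  refine ⟨g, ?_, ?_⟩
  · rw [hdeg]
    have hg' : ((Nat.card (XN N) : ℤ) + 2 = orbCount (XN N) ModularGroup.S + cuspCount N
        + orbCount (XN N) (ModularGroup.S * ModularGroup.T) + 2 * g) := by
      exact_mod_cast hg
    linarith
  · unfold genusFormula
    rw [← hidx]
    have hg' : ((Nat.card (XN N) : ℚ) + 2 = orbCount (XN N) ModularGroup.S + cuspCount N
        + orbCount (XN N) (ModularGroup.S * ModularGroup.T) + 2 * g) := by
      exact_mod_cast hg
    have h2' : (2 * (orbCount (XN N) ModularGroup.S : ℚ) = Nat.card (XN N) + nuTwo N) := by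
      exact_mod_cast h2
    have h3' : (3 * (orbCount (XN N) (ModularGroup.S * ModularGroup.T) : ℚ)
      = Nat.card (XN N) + 2 * nuThree N) := by exact_mod_cast h3
    linarith

theorem result (N : ℕ) [NeZero N]
    [AlgebraicCurve.HasCanonicalDivisor (K := AlgebraicClosure ℚ) (F := ↥(ModularCurve.modularFunctionFieldBar N))] :
    (AlgebraicCurve.genus (AlgebraicClosure ℚ) ↥(ModularCurve.modularFunctionFieldBar N) : ℚ)
      = ModularCurve.genusFormula N := by
  have := finiteDimensional_FN N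
  have hex : ∃ ω : Ω[FN N⁄Kb], ω ≠ 0 := FF.exists_differential_ne_zero Kb (jN N) (transcendental_jN N)
  obtain ⟨g, hg, hgf⟩ := degree_canonical N hex.choose hex.choose_spec
    (canonicalDivisorOf hex.choose_spec) (fun v => canonicalDivisorOf_apply _ v)
  rw [← hgf]
  unfold AlgebraicCurve.genus
  rw [dif_pos hex, hg]
  congr 1
  omega

end Fermat.Agent.S24
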