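import Fermat.Statements.S25
import Fermat.Agent.S25.P.AE0

set_option autoImplicit false
set_option autoImplicit false
universe u
open CategoryTheory CategoryTheory.Limits AlgebraicGeometry AlgebraicGeometry.RelPicard NeronModelInfra
  GoodReductionJacobian
open AlgebraicGeometry AlgebraicGeometry.RelPicard

namespace Fermat.Agent.S25

theorem result
    (k : Type u) [Field k] [IsAlgClosed k] {C : Scheme.{u}} (c : C ⟶ Spec (CommRingCat.of k))
    [IsProper c] [SmoothOfRelativeDimension 1 c] [IsIntegral C]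
    (ε : SchemeHomOver (𝟙 (Spec (CommRingCat.of k))) c) :
    ∃ D : RelativePic0Designation k c,
      Nonempty (RepresentsRelSubPic c ε (algEquivZeroCut c ε) D) ∧
        Smooth D.toBase ∧ IsProper D.toBase ∧ GeometricallyConnected D.toBase := by
  obtain ⟨Γ, hΓ, ⟨P⟩⟩ := exists_presentation k c ε
  haveI : Fact Γ.IsGood := ⟨hΓ⟩
  haveI : GeometricallyIntegral c := geometricallyIntegral_of_presentation k c ε Γ hΓ P
  haveI : Smooth c := SmoothOfRelativeDimension.smooth 1 c
  haveI : Flat c := inferInstance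
  haveI : UniversallyOpen c := inferInstance
  obtain ⟨D⟩ := nonempty_jacData (thePicModel P)
  obtain ⟨z, hz, ⟨h⟩⟩ := exists_represents_of_isUniversal (deg0Cut P) D.J D.ζ D.univ
  exact ⟨⟨D.J.left, D.J.hom, z, hz⟩,
    ⟨RepresentsRelSubPic.congrCut (fun t M => ⟨fibrewiseAlgEquivZero_of_deg0 P D t M,
      deg0_of_fibrewiseAlgEquivZero P t M⟩) h⟩,
    D.smooth, D.isProper P, D.geometricallyConnected P⟩

end Fermat.Agent.S25
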