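-- S28: Igusa, geometric integrality of the fibre of X_0(N) at a prime not dividing N.
import Fermat.Statements.S28
import Fermat.Agent.S28.Bridge
import Fermat.Agent.S28.UnitArg
import Fermat.Agent.S28.Transfer

set_option autoImplicit false
open AlgebraicGeometry CategoryTheory CategoryTheory.Limits ModularCurve ModularCurve.IgusaScheme
noncomputable section
set_option autoImplicit false
open ModularCurve ModularCurve.IgusaScheme

namespace Fermat.Agent.S28

set_option maxHeartbeats 4000000 in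
set_option synthInstance.maxHeartbeats 400000 in
theorem result
    (N : ℕ) [NeZero N] (ℓ : ℕ) [Fact ℓ.Prime] (hℓN : ¬ ℓ ∣ N)
    (K : Type) [Field K] [CharP K ℓ] [Algebra ↥(GaloisRep.ratLocalizedAt ℓ) K] :
    IsIntegral ↑(pullback (igusaTo N ℓ)
      (Spec.map (CommRingCat.ofHom (algebraMap ↥(GaloisRep.ratLocalizedAt ℓ) K)))) := by
  obtain ⟨c, hc, h⟩ := exists_degree' N
  have hC := h ℂ (fun p hp hpN _ => by
    have : Fact p.Prime := ⟨hp⟩
    obtain ⟨D⟩ := exists_modEqData ℂ p
    exact ⟨⟨D⟩, V_J_not_mem_adjoin_J ℂ p (by exact_mod_cast hp.ne_zero) D⟩)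
  have hk := h (AlgebraicClosure (ZMod ℓ)) (fun p hp hpN _ => by
    have : Fact p.Prime := ⟨hp⟩
    obtain ⟨D⟩ := exists_modEqData (AlgebraicClosure (ZMod ℓ)) p
    refine ⟨⟨D⟩, V_J_not_mem_adjoin_J _ p ?_ D⟩
    intro h0
    have h2 : (p : ZMod ℓ) = 0 := by
      have := (algebraMap (ZMod ℓ) (AlgebraicClosure (ZMod ℓ))).injective
      apply this
      rw [map_zero, map_natCast]
      exact h0
    rw [ZMod.natCast_eq_zero_iff] at h2
    have h3 : ℓ = p := (Nat.prime_dvd_prime_iff_eq Fact.out hp).mp h2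
    exact hℓN (h3 ▸ hpN))
  exact isIntegral_pullback_of_good ℓ N ⊤ (good_full N ℓ c hc hC hk) K

end Fermat.Agent.S28
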