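-- Statement S33 (row 32): a Hecke-Galois datum of level `N`, `p ∥ N`, residually ordinary at `p`, is
-- ordinary at `p`.
import Fermat.Statements.S33
import Fermat.Agent.S33.Final
import Fermat.Agent.S33.Rig.Main
import Fermat.Agent.S33.Glue.Main
import Fermat.Agent.S33.Glue.Tower
import Fermat.Agent.Crux.Main

set_option autoImplicit false
variable {p : ℕ} {N : ℕ} [NeZero N] {S : Finset ℕ}
  {𝒪 : Type} [CommRing 𝒪] [IsDomain 𝒪] [IsDiscreteValuationRing 𝒪]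
  [IsAdicComplete (IsLocalRing.maximalIdeal 𝒪) 𝒪]
  {θ : CuspForm.heckeAlgebra N 2 (↑S : Set ℕ) →+* IsLocalRing.ResidueField 𝒪}
  {T : Type} [CommRing T] [IsLocalRing T] [IsNoetherianRing T]
  [IsAdicComplete (IsLocalRing.maximalIdeal T) T] [Algebra 𝒪 T] [IsLocalHom (algebraMap 𝒪 T)]
  [Module.Finite 𝒪 T] [Module.Free 𝒪 T]
open CuspForm CuspForm.HeckeGaloisRepDatum

namespace Fermat.Agent.S33

theorem result
    [Finite (IsLocalRing.ResidueField 𝒪)] [CharZero 𝒪]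
    (hp : p.Prime) (hp2 : p ≠ 2) (hp𝒪 : (p : 𝒪) ∈ IsLocalRing.maximalIdeal 𝒪) (hN : p ∣ N ∧ ¬ p ^ 2 ∣ N)
    (hNS : ∀ q : ℕ, q.Prime → q ∣ N → q ∈ S)
    (H : CuspForm.HeckeGaloisRepDatum N (↑S : Set ℕ) 𝒪 θ T)
    (hres : (GaloisRepAdic.ofResidualGaloisRep H.ρ.residual).IsOrdinaryAt p) :
    H.ρ.IsOrdinaryAt p :=
  of_inputs (fun N ℓ m _ hℓ hN hm => Fermat.Agent.Crux.crux N ℓ m hℓ hN hm)
    (fun M p _ hp hp2 hpM => rig M p hp hp2 hpM)
    (fun M p _ _ hp hp2 hpM =>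
      Glue.toric_of_core (fun M p _ _ hp hpM hadm => Glue.coreK2W M p hp hpM hadm) M p hp hp2 hpM)
    hp hp2 hp𝒪 hN hNS H hres

end Fermat.Agent.S33
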