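-- Statement S49 (row 44): the Deligne--Serre lifting lemma for lattice-realised eigensystems.
import Fermat.Statements.S49
import Fermat.Agent.S49.Combinatorics
import Fermat.Agent.S49.DeligneSerre
import Fermat.Agent.S49.QCoeff
import Fermat.Agent.S49.Congruence

set_option autoImplicit false
open CuspForm EisensteinWeightOne CongruenceSubgroup ModularFormClass
open FLT FLT.AbstractIntegralStructure

namespace Fermat.Agent.S49

theorem result
    {N : ℕ} [NeZero N] (h : CuspForm.HasIntegralBasis N) {a : ℕ → ℤ}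
    (heig : FormalHecke.IsEigensystem
      (fun ℓ => if ℓ ∣ N then 0 else ((chiNegThree ℓ : ℤ) : ℤ)) a)
    (hreal : CuspForm.IsLatticeRealized N a) :
    ∃ (f : CuspForm (Gamma0 N) 2) (_ : f.IsNormalizedEigenform)
      (𝔪' : Ideal (integralClosure ℤ ℂ)), 𝔪'.IsMaximal ∧
      ((3 : ℕ) : integralClosure ℤ ℂ) ∈ 𝔪' ∧
      ∀ (ℓ : ℕ) (_ : ℓ.Prime) (_ : ¬ ℓ ∣ N),
        ∃ c : integralClosure ℤ ℂ, (c : ℂ) = ModularFormClass.qCoeff f ℓ ∧
          c - (a ℓ : integralClosure ℤ ℂ) ∈ 𝔪' := by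
  classical
  obtain ⟨f₀, -, af, haf, hcong⟩ := hreal
  have hcong' : ∀ n, (3 : ℤ) ∣ af n - a n := fun n => by
    have := dvd_add (hcong n) (three_dvd_bridgeProduct_sub a n)
    simpa using this
  obtain ⟨ha1, harec⟩ := heig
  -- the representation of the Hecke algebra
  let ρ : heckeAlgebra N 2 (∅ : Set ℕ) →+* Module.End ℂ (CuspForm (Gamma0 N) 2) :=
    (heckeAlgebra N 2 (∅ : Set ℕ)).val.toRingHom
  have hρ : Function.Injective ρ := Subtype.val_injective
  have hρ_apply : ∀ t : heckeAlgebra N 2 (∅ : Set ℕ),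
      ρ t = (t : Module.End ℂ (CuspForm (Gamma0 N) 2)) := fun _ => rfl
  have hspan : Submodule.span ℂ ((intLattice N 2 : Submodule ℤ (CuspForm (Gamma0 N) 2)) :
      Set (CuspForm (Gamma0 N) 2)) = ⊤ := by
    rw [eq_top_iff, ← h]
    apply Submodule.span_mono
    intro f hf
    apply mem_intLattice_of_qCoeff_int
    intro n
    obtain ⟨m, hm⟩ := Subring.mem_bot.1 (hf n)
    exact ⟨m, hm.symm⟩
  have hstab : ∀ t : heckeAlgebra N 2 (∅ : Set ℕ), ∀ x ∈ intLattice N 2,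
      ρ t x ∈ intLattice N 2 := fun t x hx =>
    mem_intLattice_of_mem_heckeAlgebra (by norm_num) t.2 hx
  have hne : congIdeal N f₀ ≠ ⊤ := by
    rw [Ideal.ne_top_iff_one, mem_congIdeal]
    intro hdiv
    obtain ⟨m, hm⟩ := hdiv 1
    have h1 : ((1 : heckeAlgebra N 2 (∅ : Set ℕ)) : Module.End ℂ (CuspForm (Gamma0 N) 2)) f₀
        = f₀ := rfl
    rw [h1, ← haf 1] at hm
    have h2 : af 1 = 3 * m := by exact_mod_cast hm
    have h3 := hcong' 1
    rw [ha1, h2] at h3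
    omega
  obtain ⟨lam, v, 𝔪', hv0, hv, h𝔪'max, h𝔪'⟩ :=
    deligne_serre ρ hρ (intLattice N 2) (intLattice_fg N 2) hspan hstab (congIdeal N f₀) hne
  -- the coefficients of the eigenvector
  set b : ℕ → ℂ := fun n => qCoeff v n with hb
  let e' : ℕ → ℂ := fun ℓ => if ℓ ∣ N then 0 else (ℓ : ℂ)
  have hrel : ∀ ℓ : ℕ, ℓ.Prime → ∃ c : integralClosure ℤ ℂ,
      (∀ n : ℕ, b (ℓ * n) + e' ℓ * (if ℓ ∣ n then b (n / ℓ) else 0) = (c : ℂ) * b n) ∧
      (¬ ℓ ∣ N → c - (a ℓ : integralClosure ℤ ℂ) ∈ 𝔪') := by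
    intro ℓ hℓ
    by_cases hℓN : ℓ ∣ N
    · refine ⟨lam (heckeAlgebra.U hℓ hℓN (Set.notMem_empty ℓ)), fun n => ?_, fun hc => absurd hℓN hc⟩
      have h1 := hv (heckeAlgebra.U hℓ hℓN (Set.notMem_empty ℓ))
      rw [hρ_apply, heckeAlgebra.coe_U] at h1
      have h2 := qCoeff_heckeULin hℓ hℓN v n
      rw [h1, qCoeff_smul] at h2
      simp only [e', if_pos hℓN, zero_mul, add_zero, hb]
      rw [h2, mul_comm]
    · refine ⟨lam (heckeAlgebra.T hℓ hℓN (Set.notMem_empty ℓ)), fun n => ?_, fun _ => ?_⟩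
      · have h1 := hv (heckeAlgebra.T hℓ hℓN (Set.notMem_empty ℓ))
        rw [hρ_apply, heckeAlgebra.coe_T] at h1
        have h2 := qCoeff_heckeTLin hℓ hℓN v n
        rw [h1, qCoeff_smul] at h2
        simp only [e', if_neg hℓN, hb]
        rw [h2, mul_comm n ℓ]
        split_ifs <;> simp
      · have h1 : heckeAlgebra.T hℓ hℓN (Set.notMem_empty ℓ) -
            ((a ℓ : ℤ) : heckeAlgebra N 2 (∅ : Set ℕ)) ∈ congIdeal N f₀ := by
          rw [mem_congIdeal]
          intro n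
          have e1 : ((heckeAlgebra.T hℓ hℓN (Set.notMem_empty ℓ) -
              ((a ℓ : ℤ) : heckeAlgebra N 2 (∅ : Set ℕ)) : heckeAlgebra N 2 (∅ : Set ℕ)) :
              Module.End ℂ (CuspForm (Gamma0 N) 2)) f₀ =
              heckeTLin 2 hℓ hℓN f₀ + (-(a ℓ : ℂ)) • f₀ := by
            have : ((heckeAlgebra.T hℓ hℓN (Set.notMem_empty ℓ) -
              ((a ℓ : ℤ) : heckeAlgebra N 2 (∅ : Set ℕ)) : heckeAlgebra N 2 (∅ : Set ℕ)) :
              Module.End ℂ (CuspForm (Gamma0 N) 2)) =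
              heckeTLin 2 hℓ hℓN - ((a ℓ : ℤ) : Module.End ℂ (CuspForm (Gamma0 N) 2)) := by
              rw [← hρ_apply, map_sub, map_intCast, hρ_apply, heckeAlgebra.coe_T]
            rw [this, LinearMap.sub_apply, Module.End.intCast_apply, neg_smul,
              Int.cast_smul_eq_zsmul, sub_eq_add_neg]
          rw [e1, qCoeff_add, qCoeff_smul, qCoeff_heckeTLin]
          have hr := harec ℓ hℓ n
          simp only [if_neg hℓN] at hr
          obtain ⟨x1, hx1⟩ := hcong' (n * ℓ)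
          obtain ⟨x2, hx2⟩ := hcong' (n / ℓ)
          obtain ⟨x3, hx3⟩ := hcong' n
          obtain ⟨x4, hx4⟩ := three_dvd_sub_chiNegThree ℓ
          rw [mul_comm ℓ n] at hr
          simp only [← haf]
          by_cases hd : ℓ ∣ n
          · rw [if_pos hd] at hr ⊢
            refine ⟨x1 + x4 * af (n / ℓ) + chiNegThree ℓ * x2 - a ℓ * x3, ?_⟩
            have : af (n * ℓ) + (ℓ : ℤ) * af (n / ℓ) + -(a ℓ) * af n =
                3 * (x1 + x4 * af (n / ℓ) + chiNegThree ℓ * x2 - a ℓ * x3) := by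
              linear_combination hx1 + af (n / ℓ) * hx4 + chiNegThree ℓ * hx2 - a ℓ * hx3 + hr
            have h3 : ((ℓ : ℂ) ^ ((2 : ℤ) - 1)) = (ℓ : ℂ) := by norm_num
            rw [h3]
            exact_mod_cast this
          · rw [if_neg hd] at hr ⊢
            refine ⟨x1 - a ℓ * x3, ?_⟩
            have : af (n * ℓ) + 0 + -(a ℓ) * af n = 3 * (x1 - a ℓ * x3) := by
              linear_combination hx1 - a ℓ * hx3 + hr
            exact_mod_cast this
        have h2 := h𝔪' _ h1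
        rwa [map_sub, map_intCast] at h2
  have hb0 : b 0 = 0 := qCoeff_index_zero v
  have hb1 : b 1 ≠ 0 := by
    intro hb1
    apply hv0
    apply eq_zero_of_qCoeff
    refine eq_zero_of_relations (e := e') hb0 hb1 fun ℓ hℓ => ?_
    obtain ⟨c, hc, -⟩ := hrel ℓ hℓ
    exact ⟨(c : ℂ), hc⟩
  -- the normalised eigenform
  let g : CuspForm (Gamma0 N) 2 := (b 1)⁻¹ • v
  have hg : ∀ n, qCoeff g n = (b 1)⁻¹ * b n := fun n => qCoeff_smul _ v n
  have hcℓ : ∀ ℓ : ℕ, ℓ.Prime → ∀ c : ℂ,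
      (∀ n : ℕ, b (ℓ * n) + e' ℓ * (if ℓ ∣ n then b (n / ℓ) else 0) = c * b n) →
      c = qCoeff g ℓ := by
    intro ℓ hℓ c hc
    have h1 := hc 1
    have h2 : ¬ ℓ ∣ 1 := fun hd => hℓ.one_lt.ne' (Nat.dvd_one.1 hd)
    rw [if_neg h2, mul_zero, add_zero, mul_one] at h1
    rw [hg, h1]
    field_simp
  have hsys : FormalHecke.IsEigensystem e' (fun n => qCoeff g n) := by
    refine ⟨?_, fun ℓ hℓ n => ?_⟩
    · change qCoeff g 1 = 1
      rw [hg]
      exact inv_mul_cancel₀ hb1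
    · obtain ⟨c, hc, -⟩ := hrel ℓ hℓ
      have h1 := hcℓ ℓ hℓ c hc
      change qCoeff g (ℓ * n) + e' ℓ * (if ℓ ∣ n then qCoeff g (n / ℓ) else 0) =
        qCoeff g ℓ * qCoeff g n
      rw [← h1, hg, hg, hg]
      have h2 := hc n
      split_ifs at h2 ⊢ <;> linear_combination (b 1)⁻¹ * h2
  have hgeig : g.IsNormalizedEigenform :=
    { qCoeff_one := hsys.1
      qCoeff_mul_of_coprime := mul_of_isEigensystem hsys
      qCoeff_prime_pow_of_not_dvd := by
        intro p r hp hpN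
        have := rec_of_isEigensystem hsys p r hp
        simpa only [e', if_neg hpN] using this
      qCoeff_prime_pow_of_dvd := by
        intro p r hp hpN
        have := rec_of_isEigensystem hsys p r hp
        simpa only [e', if_pos hpN, zero_mul, sub_zero] using this }
  refine ⟨g, hgeig, 𝔪', h𝔪'max, ?_, ?_⟩
  · have h1 : ((3 : ℕ) : heckeAlgebra N 2 (∅ : Set ℕ)) ∈ congIdeal N f₀ := by
      rw [mem_congIdeal]
      intro n
      have e1 : (((3 : ℕ) : heckeAlgebra N 2 (∅ : Set ℕ)) :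
          Module.End ℂ (CuspForm (Gamma0 N) 2)) f₀ = (3 : ℂ) • f₀ := by
        rw [← hρ_apply, map_natCast, Module.End.natCast_apply, ← Nat.cast_smul_eq_nsmul ℂ]
        norm_num
      rw [e1, qCoeff_smul, ← haf]
      exact ⟨af n, rfl⟩
    have h2 := h𝔪' _ h1
    rwa [map_natCast] at h2
  · intro ℓ hℓ hℓN
    obtain ⟨c, hc, hc'⟩ := hrel ℓ hℓ
    exact ⟨c, hcℓ ℓ hℓ c hc, hc' hℓN⟩

end Fermat.Agent.S49
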