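-- Statement S44 (row 38).  Proof: `S44.final` (Fermat/Agent/S44/Final.lean) applied to `Const.const'`, `Old.old`, `ResDeg.resDeg`.
import Fermat.Statements.S44
import Fermat.Agent.S44.Final
import Fermat.Agent.S44.Const.MainB
import Fermat.Agent.S44.Old.Main
import Fermat.Agent.S44.ResDeg.RedTo

set_option autoImplicit false
open WeierstrassCurve WeierstrassCurve.Affine WeierstrassCurve.Affine.Point
open CuspForm ModularFormClass UpperHalfPlane
open FreyPackage

namespace Fermat.Agent.S44

theorem result (P : FreyPackage) {N : ℕ} (hcond : P.IsConductorLevel N) (hpN : P.p ∣ N) (hirr : GaloisRepIsIrreducible (K := AlgebraicClosure ℚ) ℚ P.freyCurve P.p) (hmod : P.ModularRepOfLevel N) : ∃ M : ℕ, M ∣ N ∧ ¬ P.p ∣ M ∧ P.ModularRepOfLevel M :=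
  final (fun _ _ _ _ hp hp5 hpM => Const.const' hp hp5 hpM)
    (fun M p _ hp hp5 hpM => Old.old M p hp hp5 hpM)
    (fun M p _ hp _ hpM => haveI : NeZero p := ⟨hp.ne_zero⟩; ResDeg.resDeg M p hp hpM)
    P hcond hpN hirr hmod

end Fermat.Agent.S44
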