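-- Statement S43 (row 37).  Proof: `S43.final` (S43/Top.lean) applied to `Fin.core_of_blocks` (S43/Fin/Main.lean), `I.xBlock` (S43/I/Main.lean), `T.tBlock` (S43/T/Main.lean).
import Fermat.Statements.S43
import Fermat.Agent.S43.Top
import Fermat.Agent.S43.Fin.Main
import Fermat.Agent.S43.I.Main
import Fermat.Agent.S43.T.Main

set_option autoImplicit false
open WeierstrassCurve WeierstrassCurve.Affine WeierstrassCurve.Affine.Point
open CuspForm ModularFormClass UpperHalfPlane
open FreyPackage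

namespace Fermat.Agent.S43

theorem result (P : FreyPackage) {N q : ℕ} (hcond : P.IsConductorLevel N) (hq : q.Prime) (hq2 : q ≠ 2) (hqp : q ≠ P.p) (hqN : q ∣ N) (hirr : GaloisRepIsIrreducible (K := AlgebraicClosure ℚ) ℚ P.freyCurve P.p) (hmod : P.ModularRepOfLevel N) (hunr : P.GaloisRepUnramifiedAt q) : ∃ M : ℕ, M ∣ N ∧ ¬ q ∣ M ∧ P.ModularRepOfLevel M :=
  final (fun _ _ _ _ _ hp hp5 hq hq2 hqp hqM hpM hMsq =>
    Fin.core_of_blocks hp hp5 hq hq2 hqp hqM hpM hMsq I.xBlock T.tBlock)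
    P hcond hq hq2 hqp hqN hirr hmod hunr

end Fermat.Agent.S43
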