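-- Statement S51 (row 45): for a semistable integral Weierstrass curve, at least one of the
-- mod-3 and mod-5 representations is irreducible.
import Fermat.Statements.S51
import Fermat.Agent.S51.Three
import Fermat.Agent.S51.Five
import Fermat.Agent.S51.Arith

set_option autoImplicit false
open WeierstrassCurve WeierstrassCurve.Affine WeierstrassCurve.Affine.Point
open CuspForm ModularFormClass UpperHalfPlane
open WeierstrassCurve

namespace Fermat.Agent.S51

theorem result (W : WeierstrassCurve ℤ) (hΔ : W.Δ ≠ 0) (hW : W.IsSemistableModel) : W.ModRepIsIrreducible 3 ∨ W.ModRepIsIrreducible 5 := by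
  by_contra hcon
  rw [not_or] at hcon
  obtain ⟨h3, h5⟩ := hcon
  have hΔ' : (W.map (Int.castRingHom ℚ)).Δ ≠ 0 := by
    rw [WeierstrassCurve.map_Δ]
    simpa using hΔ
  obtain ⟨x, hx⟩ := exists_root_psi3 _ hΔ' h3
  obtain ⟨s, v, hsv, h1, h2⟩ := exists_sv _ hΔ' h5
  simp only [WeierstrassCurve.map_b₂, WeierstrassCurve.map_b₄, WeierstrassCurve.map_b₆,
    WeierstrassCurve.map_b₈, eq_intCast] at hx h1 h2
  exact arithmetic W hΔ hW x s v hx hsv h1 h2

end Fermat.Agent.S51
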