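import Fermat.Statements.S52
import Fermat.Agent.S52.IdBasic
import Fermat.Agent.S52.IdHT
import Fermat.Agent.S52.ShortForm
import Fermat.Agent.S52.TraceCongr
import Fermat.Agent.S52.Three
import Fermat.Agent.S52.Semistable
import Fermat.Agent.S52.NoPolyRoot
import Fermat.Agent.S52.Hilbert

set_option autoImplicit false
open WeierstrassCurve WeierstrassCurve.Affine WeierstrassCurve.Affine.Point
open CuspForm ModularFormClass UpperHalfPlane
open WeierstrassCurve

namespace Fermat.Agent.S52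

namespace Glue

open Polynomial

/-- there is an integer `e` with `famD c4 c6 e 1 ≠ 0`. -/
theorem exists_famD_ne_zero (c4 c6 : ℤ) : ∃ e : ℤ, famD c4 c6 e 1 ≠ 0 := by
  by_contra hcon
  simp only [not_exists, not_not] at hcon
  set P : ℤ[X] := famD (C c4) (C c6) X 1 with hP
  have hev : ∀ e : ℤ, P.eval e = famD c4 c6 e 1 := by
    intro e
    have := map_famD (Polynomial.evalRingHom e) (C c4) (C c6) X 1
    simpa [hP] using this
  have hzero : P = 0 := by
    apply Polynomial.funext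
    intro e
    rw [hev, hcon, eval_zero]
  have hdeg : P.natDegree = 12 := by
    simp only [hP, famD]
    compute_degree!
  rw [hzero] at hdeg
  simp at hdeg

/-- congruences for the forms. -/
theorem dvd_fam_sub (c4 c6 M x y : ℤ) :
    M ∣ famH c4 c6 (1 + M * x) (M * y) - c4 ∧ M ∣ famT c4 c6 (1 + M * x) (M * y) - c6 := by
  set f := Ideal.Quotient.mk (Ideal.span {M}) with hf
  have hM : f M = 0 := by
    rw [hf, Ideal.Quotient.eq_zero_iff_mem]; exact Ideal.mem_span_singleton_self M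
  have key : ∀ z : ℤ, f z = 0 → M ∣ z := by
    intro z hz
    rw [hf, Ideal.Quotient.eq_zero_iff_mem] at hz
    exact Ideal.mem_span_singleton.mp hz
  constructor
  · apply key
    rw [map_sub, map_famH, map_add, map_mul, map_mul, hM, map_one, zero_mul, zero_mul, add_zero,
      famH_one_zero, sub_self]
  · apply key
    rw [map_sub, map_famT, map_add, map_mul, map_mul, hM, map_one, zero_mul, zero_mul, add_zero,
      famT_one_zero, sub_self]

/-- the shifted curve. -/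
def shift (W : WeierstrassCurve ℤ) (M' Xh Yt : ℤ) : WeierstrassCurve ℤ :=
  ⟨W.a₁, W.a₂, W.a₃, W.a₄ - 36 * M' * Xh, W.a₆ - 3 * W.b₂ * M' * Xh - 2 * M' * Yt⟩

theorem shift_c₄ (W : WeierstrassCurve ℤ) (M' Xh Yt : ℤ) :
    (shift W M' Xh Yt).c₄ = W.c₄ + 1728 * M' * Xh := by
  simp only [shift, c₄, b₂, b₄]; ring

theorem shift_c₆ (W : WeierstrassCurve ℤ) (M' Xh Yt : ℤ) :
    (shift W M' Xh Yt).c₆ = W.c₆ + 1728 * M' * Yt := by
  simp only [shift, c₆, b₂, b₄, b₆]; ring

theorem shift_map {S : Type*} [CommRing S] (f : ℤ →+* S) (W : WeierstrassCurve ℤ) (M' Xh Yt : ℤ)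
    (hM : f M' = 0) : (shift W M' Xh Yt).map f = W.map f := by
  ext
  · rfl
  · rfl
  · rfl
  · show f (W.a₄ - 36 * M' * Xh) = f W.a₄
    rw [map_sub, map_mul, map_mul, hM]; ring
  · show f (W.a₆ - 3 * W.b₂ * M' * Xh - 2 * M' * Yt) = f W.a₆
    simp only [map_sub, map_mul, hM]; ring

theorem dvd_shift_Δ (W : WeierstrassCurve ℤ) (M' Xh Yt : ℤ) :
    M' ∣ (shift W M' Xh Yt).Δ - W.Δ := by
  set f := Ideal.Quotient.mk (Ideal.span {M'}) with hf
  have hM : f M' = 0 := by
    rw [hf, Ideal.Quotient.eq_zero_iff_mem]; exact Ideal.mem_span_singleton_self M'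
  have h1 : f ((shift W M' Xh Yt).Δ - W.Δ) = 0 := by
    rw [map_sub, ← map_Δ, ← map_Δ, shift_map f W M' Xh Yt hM, sub_self]
  rw [hf, Ideal.Quotient.eq_zero_iff_mem] at h1
  exact Ideal.mem_span_singleton.mp h1

theorem seven_le_of_not_dvd {p : ℕ} (hp : p.Prime) (h : ¬ (p : ℤ) ∣ 30) : 7 ≤ p := by
  by_contra hlt
  have hlt' : p < 7 := not_le.mp hlt
  interval_cases p
  · exact absurd hp (by norm_num)
  · exact absurd hp (by norm_num)
  · exact h (by norm_num)
  · exact h (by norm_num)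
  · exact absurd hp (by norm_num)
  · exact h (by norm_num)
  · exact absurd hp (by norm_num)

theorem not_dvd_1728_mul {p : ℕ} (hp : p.Prime) (h30 : ¬ (p : ℤ) ∣ 30) {D : ℤ}
    (hD : ¬ (p : ℤ) ∣ D) : ¬ (p : ℤ) ∣ 1728 * D := by
  have hp' : Prime (p : ℤ) := Nat.prime_iff_prime_int.mp hp
  intro h
  rcases hp'.dvd_or_dvd h with h | h
  · have h1 : (1728 : ℤ) = 2 ^ 6 * 3 ^ 3 := by norm_num
    rw [h1] at h
    rcases hp'.dvd_or_dvd h with h | h
    · exact h30 ((hp'.dvd_of_dvd_pow h).trans (by norm_num))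
    · exact h30 ((hp'.dvd_of_dvd_pow h).trans (by norm_num))
  · exact hD h

end Glue

open Glue Polynomial in
theorem result (W : WeierstrassCurve ℤ) (hΔ : W.Δ ≠ 0) (hW : W.IsSemistableModel) (h5 : W.ModRepIsIrreducible 5) : ∃ W' : WeierstrassCurve ℤ, W'.Δ ≠ 0 ∧ W'.IsSemistableModel ∧ W'.ModRepIsIrreducible 3 ∧ ∀ ℓ : ℕ, ℓ.Prime → W.IsGoodPrimeFor ℓ → W'.IsGoodPrimeFor ℓ → ℓ ≠ 5 → (5 : ℤ) ∣ (W'.apOfModel ℓ - W.apOfModel ℓ) := by
  set c4 := W.c₄ with hc4
  set c6 := W.c₆ with hc6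
  have hrel : c4 ^ 3 - c6 ^ 2 = 1728 * W.Δ := (W.c_relation).symm
  have hκ : c4 ^ 3 - c6 ^ 2 ≠ 0 := by rw [hrel]; exact mul_ne_zero (by norm_num) hΔ
  set M' : ℤ := 30 * W.Δ with hM'
  have hM'0 : M' ≠ 0 := mul_ne_zero (by norm_num) hΔ
  set M : ℤ := 1728 * M' with hM
  have hM0 : M ≠ 0 := mul_ne_zero (by norm_num) hM'0
  obtain ⟨e, he⟩ := exists_famD_ne_zero c4 c6
  -- nondegeneracy at infinity
  obtain ⟨a, ha⟩ : ∃ a : ℤ, a = M * e := ⟨_, rfl⟩
  have hD : famD c4 c6 a M ≠ 0 := by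
    have := famD_smul c4 c6 M e 1
    rw [mul_one] at this
    rw [ha, this]
    exact mul_ne_zero (pow_ne_zero _ hM0) he
  have hlead0 : famH c4 c6 a M ^ 3 - famT c4 c6 a M ^ 2 ≠ 0 := by
    rw [famH_cube_sub]
    exact mul_ne_zero hκ (pow_ne_zero _ hD)
  -- the polynomials
  set H : ℤ[X] := famH (C c4) (C c6) (1 + C a * X) (C M * X) with hH
  set T : ℤ[X] := famT (C c4) (C c6) (1 + C a * X) (C M * X) with hT
  set Hr : ℤ[X] := famH (C c4) (C c6) (X + C a) (C M) with hHr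
  set Tr : ℤ[X] := famT (C c4) (C c6) (X + C a) (C M) with hTr
  have hHz : ∀ z : ℂ, z ≠ 0 → aeval z H = z ^ 20 * aeval z⁻¹ Hr := by
    intro z hz
    have e1 := map_famH (aeval z : ℤ[X] →ₐ[ℤ] ℂ).toRingHom (C c4) (C c6) (1 + C a * X) (C M * X)
    have e2 := map_famH (aeval z⁻¹ : ℤ[X] →ₐ[ℤ] ℂ).toRingHom (C c4) (C c6) (X + C a) (C M)
    simp only [AlgHom.toRingHom_eq_coe, RingHom.coe_coe, map_add, map_mul, map_one, aeval_C,
      aeval_X] at e1 e2
    rw [hH, hHr, e1, e2, ← famH_smul]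
    congr 1
    · field_simp
    · ring
  have hTz : ∀ z : ℂ, z ≠ 0 → aeval z T = z ^ 30 * aeval z⁻¹ Tr := by
    intro z hz
    have e1 := map_famT (aeval z : ℤ[X] →ₐ[ℤ] ℂ).toRingHom (C c4) (C c6) (1 + C a * X) (C M * X)
    have e2 := map_famT (aeval z⁻¹ : ℤ[X] →ₐ[ℤ] ℂ).toRingHom (C c4) (C c6) (X + C a) (C M)
    simp only [AlgHom.toRingHom_eq_coe, RingHom.coe_coe, map_add, map_mul, map_one, aeval_C,
      aeval_X] at e1 e2
    rw [hT, hTr, e1, e2, ← famT_smul]
    congr 1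
    · field_simp
    · ring
  have hlead : Hr.eval 0 ^ 3 ≠ Tr.eval 0 ^ 2 := by
    have e1 := map_famH (Polynomial.evalRingHom (0 : ℤ)) (C c4) (C c6) (X + C a) (C M)
    have e2 := map_famT (Polynomial.evalRingHom (0 : ℤ)) (C c4) (C c6) (X + C a) (C M)
    simp only [coe_evalRingHom, eval_add, eval_X, eval_C, zero_add] at e1 e2
    rw [hHr, hTr, e1, e2]
    exact fun h => hlead0 (sub_eq_zero.mpr h)
  have hnoroot : ∀ S : ℂ[X],
      quartic3 (H.map (Int.castRingHom ℂ)) (T.map (Int.castRingHom ℂ)) S ≠ 0 := by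
    intro S
    have e1 := map_famH (Polynomial.mapRingHom (Int.castRingHom ℂ)) (C c4) (C c6)
      (1 + C a * X) (C M * X)
    have e2 := map_famT (Polynomial.mapRingHom (Int.castRingHom ℂ)) (C c4) (C c6)
      (1 + C a * X) (C M * X)
    simp only [coe_mapRingHom, Polynomial.map_add, Polynomial.map_mul, Polynomial.map_one,
      Polynomial.map_C, Polynomial.map_X] at e1 e2
    rw [hH, hT, e1, e2]
    have hne : ∀ z : ℤ, z ≠ 0 → Int.castRingHom ℂ z ≠ 0 := fun z hz =>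
      (map_ne_zero_iff _ (Int.cast_injective (α := ℂ))).mpr hz
    apply no_poly_root
    · rw [← map_pow, ← map_pow, ← map_sub]; exact hne _ hκ
    · exact hne _ hM0
    · rw [← map_famH, ← map_famT, ← map_pow, ← map_pow, ← map_sub]; exact hne _ hlead0
  obtain ⟨j, hj, hroot⟩ := exists_no_int_root H T Hr Tr hHz hTz hlead hnoroot
  set u : ℤ := 1 + M * (e * j) with hu
  set v : ℤ := M * j with hv
  have hHj : H.eval (j : ℤ) = famH c4 c6 u v := by
    have e1 := map_famH (Polynomial.evalRingHom (j : ℤ)) (C c4) (C c6) (1 + C a * X) (C M * X)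
    simp only [coe_evalRingHom, eval_add, eval_mul, eval_one, eval_X, eval_C] at e1
    rw [hH, e1, hu, hv, ha]
    congr 1
    ring
  have hTj : T.eval (j : ℤ) = famT c4 c6 u v := by
    have e1 := map_famT (Polynomial.evalRingHom (j : ℤ)) (C c4) (C c6) (1 + C a * X) (C M * X)
    simp only [coe_evalRingHom, eval_add, eval_mul, eval_one, eval_X, eval_C] at e1
    rw [hT, e1, hu, hv, ha]
    congr 1
    ring
  obtain ⟨⟨Xh, hXh⟩, ⟨Yt, hYt⟩⟩ := dvd_fam_sub c4 c6 M (e * j) j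
  rw [← hu, ← hv] at hXh hYt
  set W' := shift W M' Xh Yt with hW'
  have hc4' : W'.c₄ = famH c4 c6 u v := by
    rw [hW', shift_c₄]; linear_combination -hXh
  have hc6' : W'.c₆ = famT c4 c6 u v := by
    rw [hW', shift_c₆]; linear_combination -hYt
  have hrel' : famH c4 c6 u v ^ 3 - famT c4 c6 u v ^ 2 = 1728 * W'.Δ := by
    rw [← hc4', ← hc6']; exact (W'.c_relation).symm
  have hdvdΔ : M' ∣ W'.Δ - W.Δ := dvd_shift_Δ W M' Xh Yt
  have huv : IsCoprime u v := ⟨1, -e, by rw [hu, hv]; ring⟩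
  have hΔ' : W'.Δ ≠ 0 := by
    intro h0
    rw [h0, zero_sub, dvd_neg] at hdvdΔ
    obtain ⟨k, hk⟩ := hdvdΔ
    have h1 : W.Δ * (1 - 30 * k) = 0 := by rw [hM'] at hk; linear_combination hk
    rcases mul_eq_zero.mp h1 with h | h
    · exact hΔ h
    · omega
  refine ⟨W', hΔ', ?_, ?_, ?_⟩
  · -- semistability
    intro p hp hpΔ
    by_cases hpM : (p : ℤ) ∣ M'
    · have h1 : (p : ℤ) ∣ W.Δ := by
        have := dvd_sub hpΔ (hpM.trans hdvdΔ)
        simpa using this
      have h2 := hW p hp h1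
      intro h3
      apply h2
      have h4 : W.c₄ = W'.c₄ - M' * (1728 * Xh) := by
        rw [hW', shift_c₄]; ring
      rw [h4]
      exact dvd_sub h3 (hpM.mul_right _)
    · have h30 : ¬ (p : ℤ) ∣ 30 := fun h => hpM (h.mul_right _)
      have hpD : ¬ (p : ℤ) ∣ W.Δ := fun h => hpM (h.mul_left _)
      rw [hc4']
      apply not_dvd_famH c4 c6 u v p hp (seven_le_of_not_dvd hp h30) _ huv
      · rw [hrel']; exact hpΔ.mul_left _
      · rw [hrel]; exact not_dvd_1728_mul hp h30 hpD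
  · -- irreducibility mod 3
    apply modRepIsIrreducible_three W' hΔ'
    intro s
    rw [hc4', hc6', ← hHj, ← hTj]
    exact hroot s
  · -- the congruence
    intro ℓ hℓ hgood hgood' _
    have : Fact ℓ.Prime := ⟨hℓ⟩
    by_cases hpM : (ℓ : ℤ) ∣ M'
    · have : W'.reductionMod ℓ = W.reductionMod ℓ := by
        apply shift_map
        rw [eq_intCast]
        exact (ZMod.intCast_zmod_eq_zero_iff_dvd M' ℓ).mpr hpM
      simp only [apOfModel, this, sub_self, dvd_zero]
    · have h30 : ¬ (ℓ : ℤ) ∣ 30 := fun h => hpM (h.mul_right _)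
      have h7 := seven_le_of_not_dvd hℓ h30
      have hne : ∀ z : ℤ, ¬ (ℓ : ℤ) ∣ z → ((z : ℤ) : ZMod ℓ) ≠ 0 := fun z hz h =>
        hz ((ZMod.intCast_zmod_eq_zero_iff_dvd z ℓ).mp h)
      simp only [apOfModel]
      rw [traceOfFrobenius_eq_shortW ℓ (by omega) (W'.reductionMod ℓ),
        traceOfFrobenius_eq_shortW ℓ (by omega) (W.reductionMod ℓ)]
      simp only [reductionMod, map_c₄, map_c₆]
      rw [hc4', hc6', map_famH, map_famT]
      apply trace_congr ℓ h7
      · have := hne _ (not_dvd_1728_mul hℓ h30 hgood)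
        rw [← hrel] at this
        simpa using this
      · have := hne _ (not_dvd_1728_mul hℓ h30 hgood')
        rw [← hrel'] at this
        rw [← map_famH, ← map_famT]
        simpa using this

end Fermat.Agent.S52
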