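import Fermat.Statements.S55
import Fermat.Agent.S55.D.Main
import Fermat.Agent.S55.Z.Compare
import Fermat.Agent.S55.Z.SmoothLS
import Fermat.Agent.S55.Z.Axioms
import Fermat.Agent.S55.Z.Pairing

set_option autoImplicit false
set_option autoImplicit false
open CategoryTheory Module groupCohomology ExtCitation
open groupCohomology

namespace Fermat.Agent.S55

set_option maxHeartbeats 2000000 in
theorem result
    {p : ℕ} [Fact p.Prime] (hp2 : p ≠ 2) (S : Finset Nat.Primes) (hpS : pPrime p ∈ S)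
    (M : Rep (ZMod p) (AlgebraicClosure ℚ ≃ₐ[ℚ] AlgebraicClosure ℚ))
    [FiniteDimensional (ZMod p) M]
    (hsm : ∀ m : M, ∃ F : IntermediateField ℚ (AlgebraicClosure ℚ), FiniteDimensional ℚ F ∧
      ∀ s ∈ F.fixingSubgroup, M.ρ s m = m)
    (hMur : ∀ q : Nat.Primes, q ∉ S → ∀ A : ValuationSubring (AlgebraicClosure ℚ),
      A.LiesOverPrime (q : ℕ) → ∀ g ∈ A.inertiaSubgroupIn ℚ, M.ρ g = 1) :
    ∃ B : sha₁ S (M.dualTwist (cycloChar p)) →ₗ[ZMod p] sha₂ S M →ₗ[ZMod p] ZMod p,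
      (∀ y, (∀ x, B y x = 0) → y = 0) ∧ (∀ x, (∀ y, B y x = 0) → x = 0) := by
  obtain ⟨ax⟩ := arithAxioms hp2 S hpS
  have hM : Smooth (LS S) M.ρ := smooth_LS_of_unramified S M hsm hMur
  have hM' : Smooth (LS S) ((arithDatum p S hpS).dualT M.ρ) :=
    @Datum.smooth_dualT p _ (arithDatum p S hpS) M.V _ _ _ M.ρ hM
  have hM'' : Smooth (LS S) (M.ρ.dual.twist (cycloChar p)) := hM'
  have hM3 : Smooth (LS S) (M.dualTwist (cycloChar p)).ρ := hM''
  have e₂ := (@sha₂_equiv p _ hp2 S hpS M hM).some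
  have e₁ := (@sha₁_equiv p _ hp2 S hpS (M.dualTwist (cycloChar p)) hM3).some
  have f2 := @Datum.Axioms.fin2 p _ _ ax M.V _ _ _ M.ρ hM
  have f1 := @Datum.Axioms.fin1 p _ _ ax _ _ _ _ ((arithDatum p S hpS).dualT M.ρ) hM'
  have g2 : FiniteDimensional (ZMod p) ↥((arithDatum p S hpS).Sha2 M.ρ) :=
    FiniteDimensional.finiteDimensional_submodule _
  have g1 : FiniteDimensional (ZMod p) ↥((arithDatum p S hpS).Sha1 ((arithDatum p S hpS).dualT M.ρ)) :=
    FiniteDimensional.finiteDimensional_submodule _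
  have g1' : FiniteDimensional (ZMod p)
      ↥((arithDatum p S hpS).Sha1 (M.dualTwist (cycloChar p)).ρ) := g1
  have : FiniteDimensional (ZMod p) ↥(sha₂ S M) := e₂.symm.finiteDimensional
  have : FiniteDimensional (ZMod p) ↥(sha₁ S (M.dualTwist (cycloChar p))) :=
    e₁.symm.finiteDimensional
  apply exists_perfect_pairing
  rw [e₁.finrank_eq, e₂.finrank_eq]
  exact (@Datum.Axioms.finrank_Sha2_eq_finrank_Sha1 p _ _ ax M.V _ _ _ M.ρ hM).symm

end Fermat.Agent.S55
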