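import Fermat.Statements.S57
import Fermat.Agent.S57.ProjDim
import Fermat.Agent.S57.PowerSeriesRegular
import Fermat.Agent.S57.Descent
import Fermat.Agent.S57.FiniteLength

set_option autoImplicit false
open Algebra Algebra.PatchingLevel

namespace Fermat.Agent.S57

section aux

open MvPowerSeries IsLocalRing RingTheory.Sequence

variable {𝒪 : Type} [CommRing 𝒪] [IsDomain 𝒪] [IsDiscreteValuationRing 𝒪] {r : ℕ}

theorem algHom_C (φ : MvPowerSeries (Fin r) 𝒪 →ₐ[𝒪] MvPowerSeries (Fin r) 𝒪) (c : 𝒪) :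
    φ (C c) = C c := by
  have := φ.commutes c
  simpa [MvPowerSeries.algebraMap_apply] using this

/-- An `𝒪`-algebra endomorphism of the power series ring is local. -/
theorem algHom_mem_maximalIdeal (φ : MvPowerSeries (Fin r) 𝒪 →ₐ[𝒪] MvPowerSeries (Fin r) 𝒪)
    (f : MvPowerSeries (Fin r) 𝒪) (hf : f ∈ maximalIdeal (MvPowerSeries (Fin r) 𝒪)) :
    φ f ∈ maximalIdeal (MvPowerSeries (Fin r) 𝒪) := by
  by_contra h
  rw [mem_maximalIdeal, mem_nonunits_iff, not_not] at h
  have hc : IsUnit (constantCoeff (φ f)) := isUnit_iff_constantCoeff.mp h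
  have h1 : IsUnit (f - C (constantCoeff (φ f))) := by
    by_contra h2
    have h3 : f - C (constantCoeff (φ f)) ∈ maximalIdeal (MvPowerSeries (Fin r) 𝒪) := h2
    have h4 : C (constantCoeff (φ f)) ∈ maximalIdeal (MvPowerSeries (Fin r) 𝒪) := by
      simpa using sub_mem hf h3
    exact h4 (hc.map C)
  have h2 : IsUnit (φ (f - C (constantCoeff (φ f)))) := h1.map φ
  rw [map_sub, algHom_C, isUnit_iff_constantCoeff, map_sub, constantCoeff_C, sub_self] at h2
  exact not_isUnit_zero h2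

variable {R : Type} [CommRing R] [Algebra 𝒪 R]
    {M : Type} [AddCommGroup M] [Module R M]
    (L : Algebra.PatchingLevel 𝒪 r R M ⊥)

/-- The additive equivalence `P^d ≃ N`, semilinear along `φ`. -/
noncomputable def eN : (Fin L.d → MvPowerSeries (Fin r) 𝒪) ≃+ L.N :=
  AddEquiv.ofBijective
    (AddMonoidHom.mk' (fun c => ∑ i, L.φ (c i) • L.b i) (by
      intro c c'
      simp [add_smul, Finset.sum_add_distrib]))
    (by
      constructor
      · rw [injective_iff_map_eq_zero]
        intro c hc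
        have := (L.b_rel c).mp hc
        ext1 i
        simpa using this i
      · intro x
        obtain ⟨c, hc⟩ := L.b_span x
        exact ⟨c, hc.symm⟩)

theorem eN_apply (c : Fin L.d → MvPowerSeries (Fin r) 𝒪) :
    eN L c = ∑ i, L.φ (c i) • L.b i := rfl

theorem eN_smul (a : MvPowerSeries (Fin r) 𝒪) (c : Fin L.d → MvPowerSeries (Fin r) 𝒪) :
    eN L (a • c) = L.φ a • eN L c := by
  simp [eN_apply, Finset.smul_sum, mul_smul]

theorem finite_N : Module.Finite (MvPowerSeries (Fin r) 𝒪) L.N := by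
  refine Module.Finite.of_surjective (Fintype.linearCombination (MvPowerSeries (Fin r) 𝒪) L.b) ?_
  intro x
  obtain ⟨c, hc⟩ := L.b_span x
  refine ⟨fun i => L.φ (c i), ?_⟩
  rw [hc, Fintype.linearCombination_apply]

theorem isWeaklyRegular_N (ϖ : 𝒪) (hϖ : ϖ ≠ 0) :
    IsWeaklyRegular L.N ((params r ϖ).map L.φ) := by
  have h1 : IsWeaklyRegular (MvPowerSeries (Fin r) 𝒪) (params r ϖ) := isWeaklyRegular_params ϖ hϖ
  have h2 : IsWeaklyRegular (Fin L.d → MvPowerSeries (Fin r) 𝒪) (params r ϖ) :=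
    ((TensorProduct.rid (MvPowerSeries (Fin r) 𝒪)
      (Fin L.d → MvPowerSeries (Fin r) 𝒪)).isWeaklyRegular_congr _).mp
      (h1.isWeaklyRegular_lTensor (M₂ := Fin L.d → MvPowerSeries (Fin r) 𝒪))
  refine ((eN L).isWeaklyRegular_congr ?_).mp h2
  exact List.forall₂_map_right_iff.mpr (List.forall₂_same.mpr fun a _ c => eN_smul L a c)

theorem ofList_map_params (ϖ : 𝒪) (hϖ : Irreducible ϖ) :
    Ideal.ofList ((params r ϖ).map L.φ) =
      Ideal.map L.φ (maximalIdeal (MvPowerSeries (Fin r) 𝒪)) := by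
  rw [← ofList_params ϖ hϖ]
  exact (Ideal.map_ofList (L.φ : MvPowerSeries (Fin r) 𝒪 →+* MvPowerSeries (Fin r) 𝒪) _).symm

theorem isFiniteLength_quot (ϖ : 𝒪) (hϖ : Irreducible ϖ) :
    IsFiniteLength (MvPowerSeries (Fin r) 𝒪)
      (L.N ⧸ (Ideal.ofList ((params r ϖ).map L.φ) • ⊤ :
        Submodule (MvPowerSeries (Fin r) 𝒪) L.N)) := by
  rw [ofList_map_params L ϖ hϖ]
  refine isFiniteLength_of_finite_of_torsion (A := 𝒪) (maximalIdeal 𝒪) ?_
    (fun i => Submodule.Quotient.mk (L.b i)) ?_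
  · intro a ha x
    obtain ⟨n, rfl⟩ := Submodule.Quotient.mk_surjective _ x
    rw [← Submodule.Quotient.mk_smul, Submodule.Quotient.mk_eq_zero]
    refine Submodule.smul_mem_smul ?_ trivial
    have h1 : (C a : MvPowerSeries (Fin r) 𝒪) ∈ maximalIdeal (MvPowerSeries (Fin r) 𝒪) := by
      rw [mem_maximalIdeal, mem_nonunits_iff, isUnit_iff_constantCoeff, constantCoeff_C]
      exact ha
    have h2 := Ideal.mem_map_of_mem L.φ h1
    rw [algHom_C] at h2
    simpa [MvPowerSeries.algebraMap_apply] using h2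
  · intro x
    obtain ⟨n, rfl⟩ := Submodule.Quotient.mk_surjective _ x
    obtain ⟨c, hc⟩ := L.b_span n
    refine ⟨fun i => constantCoeff (c i), ?_⟩
    simp only [← Submodule.mkQ_apply, ← map_smul, ← map_sum]
    rw [Submodule.mkQ_apply, Submodule.mkQ_apply, Submodule.Quotient.eq, hc,
      ← Finset.sum_sub_distrib]
    refine Submodule.sum_mem _ (fun i _ => ?_)
    rw [← sub_smul]
    refine Submodule.smul_mem_smul ?_ trivial
    have h1 : c i - C (constantCoeff (c i)) ∈ maximalIdeal (MvPowerSeries (Fin r) 𝒪) := by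
      rw [mem_maximalIdeal, mem_nonunits_iff, isUnit_iff_constantCoeff, map_sub, constantCoeff_C,
        sub_self]
      exact not_isUnit_zero
    have h2 := Ideal.mem_map_of_mem L.φ h1
    rw [map_sub, algHom_C] at h2
    simpa [MvPowerSeries.algebraMap_apply] using h2

theorem free_N [Nontrivial M] : Module.Free (MvPowerSeries (Fin r) 𝒪) L.N := by
  obtain ⟨ϖ, hϖ⟩ := IsDiscreteValuationRing.exists_irreducible 𝒪
  have : Module.Finite (MvPowerSeries (Fin r) 𝒪) L.N := finite_N L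
  have : Nontrivial L.N := L.π_surjective.nontrivial
  refine free_of_regular_sequences (params r ϖ) (isRegular_params ϖ hϖ) (ofList_params ϖ hϖ) L.N
    ((params r ϖ).map L.φ) (isWeaklyRegular_N L ϖ hϖ.ne_zero) ?_ (by simp)
    (isFiniteLength_quot L ϖ hϖ)
  intro y hy
  obtain ⟨x, hx, rfl⟩ := List.mem_map.mp hy
  refine algHom_mem_maximalIdeal L.φ x ?_
  rw [← ofList_params ϖ hϖ]
  exact Ideal.subset_span hx

end aux

theorem result
    {𝒪 : Type} [CommRing 𝒪] [IsDomain 𝒪] [IsDiscreteValuationRing 𝒪]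
    {r : ℕ} {R : Type} [CommRing R] [Algebra 𝒪 R]
    {M : Type} [AddCommGroup M] [Module R M] [Nontrivial M]
    (L : Algebra.PatchingLevel 𝒪 r R M ⊥) :
    Module.Free R M ∧ Module.annihilator R M = ⊥ ∧
      RingHom.ker L.ψ = Ideal.span (Set.range fun i : Fin r => L.φ (MvPowerSeries.X i)) := by
  have : Module.Free (MvPowerSeries (Fin r) 𝒪) L.N := free_N L
  refine descent_of_free (L.ψ : MvPowerSeries (Fin r) 𝒪 →+* R) L.ψ_surjective
    (Ideal.span (Set.range fun i : Fin r => L.φ (MvPowerSeries.X i))) ?_ L.π L.π_smul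
    L.π_surjective L.ker_π
  rw [Ideal.span_le]
  rintro _ ⟨i, rfl⟩
  exact L.ψ_φ_X i

end Fermat.Agent.S57
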